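import Fermat.Agent.S48.H968.QLin

/-!
# S48 / INT piece CONJ (helper968): `conj : INT.ConjStatement`

Conjugate eigenforms.  `f = ∑ c_i h_i` with `h_i` of integer `q`-expansion; `K = eigenField`;
`π : ℂ → K` a `K`-linear retraction.  Then `b_n := π (a_n f) = ∑ π(c_i) a_n(h_i)` satisfies the
Hecke relations of `f` inside `K` (they are `K`-linear in the `a_n`), with `b_1 = 1` and
`b_p = a_p`.  For `τ : K → ℂ` the form `f' := ∑ τ(π c_i) h_i` has `a_n(f') = τ(b_n)`.
-/

set_option autoImplicit false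

open CongruenceSubgroup UpperHalfPlane
open scoped MatrixGroups ModularForm

namespace Fermat.Agent.S48.H968

open Fermat.Agent.S48 Fermat.Agent.S48.Top

section eps

variable {N : ℕ} (ε : DirichletCharacter ℂ N) (f : ℍ → ℂ)

theorem eps_mem_eigenField (a : ZMod N) : ε a ∈ INT.eigenField N ε f :=
  IntermediateField.subset_adjoin ℚ _ (Or.inr ⟨a, rfl⟩)

theorem qCoeff_mem_eigenField {p : ℕ} (hp : p.Prime) (hpN : ¬ p ∣ N) :
    ModularFormClass.qCoeff f p ∈ INT.eigenField N ε f :=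
  IntermediateField.subset_adjoin ℚ _ (Or.inl ⟨p, hp, hpN, rfl⟩)

/-- `ε` restricted to the units, with values in `K = eigenField`. -/
noncomputable def epsUnitsK : (ZMod N)ˣ →* INT.eigenField N ε f where
  toFun a := ⟨ε a, eps_mem_eigenField ε f a⟩
  map_one' := by
    apply Subtype.ext
    simp
  map_mul' a b := by
    apply Subtype.ext
    simp

/-- `ε` as a character with values in `K = eigenField`. -/
noncomputable def epsK : MulChar (ZMod N) (INT.eigenField N ε f) :=
  MulChar.ofUnitHom (epsUnitsK ε f).toHomUnits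

theorem epsK_coe (a : ZMod N) : ((epsK ε f a : INT.eigenField N ε f) : ℂ) = ε a := by
  by_cases ha : IsUnit a
  · obtain ⟨u, rfl⟩ := ha
    rw [epsK, MulChar.ofUnitHom_coe, MonoidHom.coe_toHomUnits]
    rfl
  · rw [MulChar.map_nonunit _ ha, MulChar.map_nonunit _ ha]
    rfl

end eps

/-- **CONJ**. -/
theorem conj : INT.ConjStatement := by
  intro N _ ε M _ hNM hInt f hf τ
  classical
  -- expansion of `f` in forms with integer `q`-expansion
  have hfmem : f ∈ Submodule.span ℂ {g : CuspForm (Gamma1 M) 1 | INT.IsIntQ g} := by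
    rw [hInt]; trivial
  obtain ⟨r, c, h, hsum⟩ := Submodule.mem_span_set'.mp hfmem
  have hz : ∀ (i : Fin r) (n : ℕ), ∃ m : ℤ,
      ModularFormClass.qCoeff (⇑(h i : CuspForm (Gamma1 M) 1)) n = (m : ℂ) := fun i n => (h i).2 n
  choose z hz using hz
  have hfn : ∀ n : ℕ, ModularFormClass.qCoeff (⇑f) n = ∑ i, c i * (z i n : ℂ) := by
    intro n
    rw [← hsum, qCoeff_sum_smul]
    exact Finset.sum_congr rfl fun i _ => by rw [hz]
  -- a `K`-linear retraction of `ℂ` onto `K`
  have hinj : LinearMap.ker (Algebra.linearMap (INT.eigenField N ε ⇑f) ℂ) = ⊥ :=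
    LinearMap.ker_eq_bot.mpr (algebraMap (INT.eigenField N ε ⇑f) ℂ).injective
  obtain ⟨π, hπ⟩ := LinearMap.exists_leftInverse_of_injective _ hinj
  have hπK : ∀ k : INT.eigenField N ε ⇑f, π (k : ℂ) = k := fun k => by
    have := LinearMap.congr_fun hπ k
    simpa using this
  have hπmul : ∀ (k : INT.eigenField N ε ⇑f) (x : ℂ), π ((k : ℂ) * x) = k * π x := fun k x => by
    have h1 : (k : ℂ) * x = k • x := by
      rw [Algebra.smul_def]; rfl
    rw [h1, map_smul, smul_eq_mul]
  have hπint : ∀ (m : ℤ) (x : ℂ), π (x * (m : ℂ)) = π x * (m : INT.eigenField N ε ⇑f) :=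
    fun m x => by
      have h1 : x * (m : ℂ) = (((m : INT.eigenField N ε ⇑f) : INT.eigenField N ε ⇑f) : ℂ) * x := by
        push_cast; ring
      rw [h1, hπmul, mul_comm]
  set b : ℕ → INT.eigenField N ε ⇑f := fun n => π (ModularFormClass.qCoeff (⇑f) n) with hb
  set y : Fin r → INT.eigenField N ε ⇑f := fun i => π (c i) with hy
  have hbn : ∀ n : ℕ, b n = ∑ i, y i * (z i n : INT.eigenField N ε ⇑f) := by
    intro n
    simp only [hb, hy]
    rw [hfn n, map_sum]
    exact Finset.sum_congr rfl fun i _ => hπint _ _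
  have hb1 : b 1 = 1 := by
    simp only [hb]
    rw [hf.1]
    have := hπK 1
    simpa using this
  -- the eigenvalues inside `K`
  have hrel : ∀ (p : ℕ) (hp : p.Prime) (hpN : ¬ p ∣ N) (n : ℕ),
      b (p * n) + epsK ε ⇑f (p : ZMod N) * (if p ∣ n then b (n / p) else 0) =
        (⟨ModularFormClass.qCoeff (⇑f) p, qCoeff_mem_eigenField ε ⇑f hp hpN⟩ :
          INT.eigenField N ε ⇑f) * b n := by
    intro p hp hpN n
    have h1 := congrArg π (hf.2 p hp hpN n)
    rw [map_add] at h1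
    have h2 : π (ε (p : ZMod N) * (if p ∣ n then ModularFormClass.qCoeff (⇑f) (n / p) else 0)) =
        epsK ε ⇑f (p : ZMod N) * (if p ∣ n then b (n / p) else 0) := by
      rw [← epsK_coe ε ⇑f, hπmul]
      split_ifs
      · rfl
      · rw [map_zero]
    have h3 : π (ModularFormClass.qCoeff (⇑f) p * ModularFormClass.qCoeff (⇑f) n) =
        (⟨ModularFormClass.qCoeff (⇑f) p, qCoeff_mem_eigenField ε ⇑f hp hpN⟩ :
          INT.eigenField N ε ⇑f) * b n :=
      hπmul ⟨ModularFormClass.qCoeff (⇑f) p, qCoeff_mem_eigenField ε ⇑f hp hpN⟩ _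
    rw [h2, h3] at h1
    exact h1
  have hbp : ∀ p : ℕ, ∀ hp : p.Prime, ∀ hpN : ¬ p ∣ N,
      b p = (⟨ModularFormClass.qCoeff (⇑f) p, qCoeff_mem_eigenField ε ⇑f hp hpN⟩ :
          INT.eigenField N ε ⇑f) := by
    intro p hp hpN
    have h1 := hrel p hp hpN 1
    have hp1 : ¬ p ∣ 1 := fun h => hp.one_lt.ne' (Nat.dvd_one.mp h)
    rw [if_neg hp1, mul_zero, add_zero, mul_one, hb1, mul_one] at h1
    exact h1
  -- the conjugate form
  set f' : CuspForm (Gamma1 M) 1 := ∑ i, (τ (y i)) • (h i : CuspForm (Gamma1 M) 1) with hf'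
  have hf'n : ∀ n : ℕ, ModularFormClass.qCoeff (⇑f') n = τ (b n) := by
    intro n
    rw [hf', qCoeff_sum_smul, hbn n, map_sum]
    refine Finset.sum_congr rfl fun i _ => ?_
    rw [hz, map_mul, map_intCast]
  -- the conjugate character
  set ε' : DirichletCharacter ℂ M :=
    DirichletCharacter.changeLevel hNM ((epsK ε ⇑f).ringHomComp (τ : INT.eigenField N ε ⇑f →+* ℂ))
    with hε'
  have hε'p : ∀ p : ℕ, p.Prime → ¬ p ∣ M → ε' (p : ZMod M) = τ (epsK ε ⇑f (p : ZMod N)) := by
    intro p hp hpM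
    have hcop : Nat.Coprime p M := (Nat.Prime.coprime_iff_not_dvd hp).mpr hpM
    have hu : ((ZMod.unitOfCoprime p hcop : (ZMod M)ˣ) : ZMod M) = (p : ZMod M) :=
      ZMod.coe_unitOfCoprime p hcop
    rw [← hu, hε', DirichletCharacter.changeLevel_eq_cast_of_dvd, hu, ZMod.cast_natCast hNM,
      MulChar.ringHomComp_apply]
    rfl
  refine ⟨ε', f', ⟨?_, ?_⟩, ?_⟩
  · rw [hf'n, hb1, map_one]
  · intro p hp hpM n
    have hpN : ¬ p ∣ N := fun hd => hpM (hd.trans hNM)
    simp only [hf'n]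
    rw [hε'p p hp hpM, hbp p hp hpN, ← map_mul, ← hrel p hp hpN n, map_add, map_mul]
    congr 2
    split_ifs
    · rfl
    · rw [map_zero]
  · intro p hp hpM x hx
    have hpN : ¬ p ∣ N := fun hd => hpM (hd.trans hNM)
    rw [hf'n, hbp p hp hpN]
    congr 1
    exact Subtype.ext hx.symm

end Fermat.Agent.S48.H968
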