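import Fermat.Agent.S48.H968.QLin

/-!
# S48 / INT piece LAT (helper968): `lattice : INT.LatticeStatement`

With an integral structure on `S_k(Γ₁(M))`, the `q`-coefficients of every form lie in a finitely
generated `ℤ`-submodule of `ℂ`.
-/

set_option autoImplicit false

open CongruenceSubgroup UpperHalfPlane
open scoped MatrixGroups ModularForm

namespace Fermat.Agent.S48.H968

open Fermat.Agent.S48

/-- **LAT**. -/
theorem lattice : INT.LatticeStatement := by
  intro M k hInt f
  have hf : f ∈ Submodule.span ℂ {f : CuspForm (Gamma1 M) k | INT.IsIntQ f} := by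
    rw [hInt]; trivial
  induction hf using Submodule.span_induction with
  | mem h hh =>
    refine ⟨Submodule.span ℤ {1}, Submodule.fg_span_singleton 1, fun n => ?_⟩
    obtain ⟨m, hm⟩ := hh n
    rw [hm]
    exact Submodule.mem_span_singleton.mpr ⟨m, by simp⟩
  | zero =>
    refine ⟨⊥, Submodule.fg_bot, fun n => ?_⟩
    have h0 : ModularFormClass.qCoeff (⇑(0 : CuspForm (Gamma1 M) k)) n = 0 := by
      rw [← qCoeffLin_apply, map_zero]; rfl
    rw [h0]
    exact Submodule.zero_mem _
  | add f g _ _ hf hg =>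
    obtain ⟨Λ₁, h1, h1'⟩ := hf
    obtain ⟨Λ₂, h2, h2'⟩ := hg
    refine ⟨Λ₁ ⊔ Λ₂, h1.sup h2, fun n => ?_⟩
    rw [qCoeff_add_cusp]
    exact Submodule.add_mem_sup (h1' n) (h2' n)
  | smul c f _ hf =>
    obtain ⟨Λ, h1, h1'⟩ := hf
    refine ⟨Λ.map (LinearMap.mulLeft ℤ c), h1.map _, fun n => ?_⟩
    rw [qCoeff_smul_cusp]
    exact Submodule.mem_map.mpr ⟨_, h1' n, rfl⟩

end Fermat.Agent.S48.H968
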