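import Mathlib
import Fermat.Agent.S48.INT.Spec

/-!
# S48 / INT (helper968): linearity of the `q`-coefficients on `S_k(Γ₁(M))`

* `qCoeffLin M k : CuspForm (Gamma1 M) k →ₗ[ℂ] (ℕ → ℂ)`, `qCoeffLin_apply`;
* `qCoeff_sum_smul`: `a_n(∑ x_i • h_i) = ∑ x_i * a_n(h_i)`.
-/

set_option autoImplicit false

open CongruenceSubgroup UpperHalfPlane
open scoped MatrixGroups ModularForm

namespace Fermat.Agent.S48.H968

variable {M : ℕ} {k : ℤ}

theorem one_mem_strictPeriods_Gamma1_h968 (M : ℕ) :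
    (1 : ℝ) ∈ ((Gamma1 M).map (Matrix.SpecialLinearGroup.mapGL ℝ)).strictPeriods := by
  simp [CongruenceSubgroup.strictPeriods_Gamma1]

theorem analyticAt_cusp_h968 (f : CuspForm (Gamma1 M) k) :
    AnalyticAt ℂ (cuspFunction 1 (f : ℍ → ℂ)) 0 :=
  ModularFormClass.analyticAt_cuspFunction_zero f one_pos (one_mem_strictPeriods_Gamma1_h968 M)

theorem qCoeff_add_cusp (f g : CuspForm (Gamma1 M) k) (n : ℕ) :
    ModularFormClass.qCoeff (⇑(f + g)) n =
      ModularFormClass.qCoeff (⇑f) n + ModularFormClass.qCoeff (⇑g) n := by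
  unfold ModularFormClass.qCoeff
  rw [FunLike.coe_add, qExpansion_add (analyticAt_cusp_h968 f) (analyticAt_cusp_h968 g),
    map_add]

theorem qCoeff_smul_cusp (c : ℂ) (f : CuspForm (Gamma1 M) k) (n : ℕ) :
    ModularFormClass.qCoeff (⇑(c • f)) n = c * ModularFormClass.qCoeff (⇑f) n := by
  unfold ModularFormClass.qCoeff
  rw [FunLike.coe_smul, qExpansion_smul (analyticAt_cusp_h968 f), PowerSeries.coeff_smul,
    smul_eq_mul]

/-- The `q`-coefficients as a linear map. -/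
noncomputable def qCoeffLin (M : ℕ) (k : ℤ) : CuspForm (Gamma1 M) k →ₗ[ℂ] (ℕ → ℂ) where
  toFun f := fun n => ModularFormClass.qCoeff (⇑f) n
  map_add' f g := funext fun n => qCoeff_add_cusp f g n
  map_smul' c f := funext fun n => by
    simp only [RingHom.id_apply, Pi.smul_apply, smul_eq_mul]
    exact qCoeff_smul_cusp c f n

theorem qCoeffLin_apply (f : CuspForm (Gamma1 M) k) (n : ℕ) :
    qCoeffLin M k f n = ModularFormClass.qCoeff (⇑f) n := rfl

theorem qCoeff_sum_smul {ι : Type*} (s : Finset ι) (x : ι → ℂ) (h : ι → CuspForm (Gamma1 M) k)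
    (n : ℕ) :
    ModularFormClass.qCoeff (⇑(∑ i ∈ s, x i • h i)) n =
      ∑ i ∈ s, x i * ModularFormClass.qCoeff (⇑(h i)) n := by
  rw [← qCoeffLin_apply, map_sum, Finset.sum_apply]
  refine Finset.sum_congr rfl fun i _ => ?_
  rw [map_smul, Pi.smul_apply, smul_eq_mul, qCoeffLin_apply]

end Fermat.Agent.S48.H968
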